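/-
Programme S12 (one-step route), brick 753b AN-BRIDGE/FREY (helper78): the relation (K) for the Frey
curve is contradictory.

`E = P.freyCurve`, `2`-torsion points `T₁ = (0, 0)`, `T₂ = (a^p/4, -a^p/8)`, `T₃ = (-b^p/4, b^p/8)`,
`t` of order `p = 2 m + 1`, `r₁ = ∏_{k=1}^m x(k t)`, `r₂ = ∏ (x(k t) - a^p/4)`,
`r₃ = ∏ (x(k t) + b^p/4)`:  `r₁⁴ = 16^(p-1) r₂⁴ = r₃⁴` is impossible
(`AnBridge51.false_of_K` with `s = 3`, `A = a^p`, `B = b^p`).
-/
import Mathlib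
import Fermat.Agent.S12P.AnBridge51.General
import Fermat.Agent.S12P.LocUnit28.Qbar
import Fermat.Agent.S13.Supersingular
import Fermat.Agent.MAZ.EF86.ModInv

set_option autoImplicit false

open WeierstrassCurve WeierstrassCurve.Affine

namespace Fermat.Agent.S12P.AnBridge78

local notation "Qb" => AlgebraicClosure ℚ

open Fermat.Agent.MAZ.ModInv (xco)
open Fermat.Agent.MAZ.Unif18 (x12)
open Fermat.Agent.S12P.LocUnit28

/-- `12 x + b₂` in terms of the `x`-coordinate, away from the origin. -/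
theorem x12_eq_xco {F : Type*} [Field F] [DecidableEq F] (W : WeierstrassCurve F)
    {Q : W.toAffine.Point} (hQ : Q ≠ 0) : x12 W Q = 12 * xco W Q + W.b₂ := by
  cases Q with
  | zero => exact absurd rfl hQ
  | some x y h => rfl

/-- the multiples `k • t`, `0 < k < p`, of a point of order `p` are nonzero. -/
theorem nsmul_ne_zero_of_lt {G : Type*} [AddGroup G] {t : G} {p k : ℕ} (ht : addOrderOf t = p)
    (hk0 : 0 < k) (hkp : k < p) : k • t ≠ 0 := by
  intro h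
  have := addOrderOf_dvd_of_nsmul_eq_zero h
  rw [ht] at this
  exact absurd (Nat.le_of_dvd hk0 this) (not_le.mpr hkp)

variable (P : FreyPackage)

/-- **AN-BRIDGE for the Frey curve**: the relation (K) is contradictory. -/
theorem frey_false_of_K {m : ℕ} (hpm : P.p = 2 * m + 1) (t : (P.freyCurve⁄Qb).Point)
    (ht : addOrderOf t = P.p)
    (hK : (∏ k ∈ Finset.Ico 1 (m + 1), xco (P.freyCurve⁄Qb) (k • t)) ^ 4 =
        16 ^ (P.p - 1) * (∏ k ∈ Finset.Ico 1 (m + 1),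
          (xco (P.freyCurve⁄Qb) (k • t) - (P.a : Qb) ^ P.p / 4)) ^ 4 ∧
      (∏ k ∈ Finset.Ico 1 (m + 1), (xco (P.freyCurve⁄Qb) (k • t) + (P.b : Qb) ^ P.p / 4)) ^ 4 =
        16 ^ (P.p - 1) * (∏ k ∈ Finset.Ico 1 (m + 1),
          (xco (P.freyCurve⁄Qb) (k • t) - (P.a : Qb) ^ P.p / 4)) ^ 4) : False := by
  have hVL := freyCurve_baseChange_eq_map P
  have hm : 1 ≤ m := by have := P.hp5; omega
  have hΔ : P.freyCurve.Δ ≠ 0 := Fermat.Agent.S13.Supersingular.freyCurve_Δ_ne_zero P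
  have hcA : cA P Qb = (P.a : Qb) ^ P.p := rfl
  have hcB : cB P Qb = (P.b : Qb) ^ P.p := rfl
  have ha1 : (P.freyCurve⁄Qb).a₁ = 1 := frey_a₁ P hVL
  have ha3 : (P.freyCurve⁄Qb).a₃ = 0 := frey_a₃ P hVL
  have hA0 : cA P Qb ≠ 0 := cA_ne_zero P
  have hB0 : cB P Qb ≠ 0 := cB_ne_zero P
  have hC0 : cA P Qb + cB P Qb ≠ 0 := cA_add_cB_ne_zero P
  -- the three points of order two
  have hn₁ : (P.freyCurve⁄Qb).Nonsingular (0 : Qb) (-0 / 2) :=
    frey_nonsingular_two_torsion P hVL (by ring)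
  have hn₂ : (P.freyCurve⁄Qb).Nonsingular (cA P Qb / 4) (-(cA P Qb / 4) / 2) :=
    frey_nonsingular_two_torsion P hVL (by ring)
  have hn₃ : (P.freyCurve⁄Qb).Nonsingular (-cB P Qb / 4) (-(-cB P Qb / 4) / 2) :=
    frey_nonsingular_two_torsion P hVL (by ring)
  have htwo : ∀ (e : Qb) (h : (P.freyCurve⁄Qb).Nonsingular e (-e / 2)),
      2 • (Point.some e (-e / 2) h : (P.freyCurve⁄Qb).Point) = 0 := by
    intro e h
    rw [two_nsmul]
    refine Point.add_of_Y_eq rfl ?_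
    simp only [negY]
    rw [ha1, ha3]
    ring
  set T₁ : (P.freyCurve⁄Qb).Point := Point.some _ _ hn₁ with hT₁
  set T₂ : (P.freyCurve⁄Qb).Point := Point.some _ _ hn₂ with hT₂
  set T₃ : (P.freyCurve⁄Qb).Point := Point.some _ _ hn₃ with hT₃
  have h12 : T₁ ≠ T₂ := by
    intro h
    rw [hT₁, hT₂, Point.some.injEq] at h
    apply hA0
    linear_combination (-4 : Qb) * h.1
  have h13 : T₁ ≠ T₃ := by
    intro h
    rw [hT₁, hT₃, Point.some.injEq] at h
    apply hB0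
    linear_combination (4 : Qb) * h.1
  have h23 : T₂ ≠ T₃ := by
    intro h
    rw [hT₂, hT₃, Point.some.injEq] at h
    apply hC0
    linear_combination (4 : Qb) * h.1
  -- the multiples of `t`
  have hkt : ∀ k ∈ Finset.Ico 1 (m + 1), k • t ≠ 0 := by
    intro k hk
    rw [Finset.mem_Ico] at hk
    exact nsmul_ne_zero_of_lt ht (by omega) (by omega)
  have hx : ∀ k ∈ Finset.Ico 1 (m + 1),
      x12 (P.freyCurve.baseChange Qb) (k • t) =
        12 * xco (P.freyCurve⁄Qb) (k • t) + (P.freyCurve.baseChange Qb).b₂ :=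
    fun k hk => x12_eq_xco _ (hkt k hk)
  have hxT₁ : x12 (P.freyCurve.baseChange Qb) T₁ = (P.freyCurve.baseChange Qb).b₂ := by
    rw [hT₁, Fermat.Agent.MAZ.Unif18.x12_some]; ring
  have hxT₂ : x12 (P.freyCurve.baseChange Qb) T₂ =
      3 * cA P Qb + (P.freyCurve.baseChange Qb).b₂ := by
    rw [hT₂, Fermat.Agent.MAZ.Unif18.x12_some]; ring
  have hxT₃ : x12 (P.freyCurve.baseChange Qb) T₃ =
      -(3 * cB P Qb) + (P.freyCurve.baseChange Qb).b₂ := by
    rw [hT₃, Fermat.Agent.MAZ.Unif18.x12_some]; ring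
  have h12m : (12 : Qb) ^ m = ∏ _k ∈ Finset.Ico 1 (m + 1), (12 : Qb) := by
    rw [Finset.prod_const]; simp
  -- products
  have hP₁ : ∏ k ∈ Finset.Ico 1 (m + 1), (x12 (P.freyCurve.baseChange Qb) (k • t)
      - x12 (P.freyCurve.baseChange Qb) T₁) =
      12 ^ m * ∏ k ∈ Finset.Ico 1 (m + 1), xco (P.freyCurve⁄Qb) (k • t) := by
    rw [h12m, ← Finset.prod_mul_distrib]
    refine Finset.prod_congr rfl fun k hk => ?_
    rw [hx k hk, hxT₁]; ring
  have hP₂ : ∏ k ∈ Finset.Ico 1 (m + 1), (x12 (P.freyCurve.baseChange Qb) (k • t)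
      - x12 (P.freyCurve.baseChange Qb) T₂) =
      12 ^ m * ∏ k ∈ Finset.Ico 1 (m + 1),
        (xco (P.freyCurve⁄Qb) (k • t) - (P.a : Qb) ^ P.p / 4) := by
    rw [h12m, ← Finset.prod_mul_distrib]
    refine Finset.prod_congr rfl fun k hk => ?_
    rw [hx k hk, hxT₂, hcA]; ring
  have hP₃ : ∏ k ∈ Finset.Ico 1 (m + 1), (x12 (P.freyCurve.baseChange Qb) (k • t)
      - x12 (P.freyCurve.baseChange Qb) T₃) =
      12 ^ m * ∏ k ∈ Finset.Ico 1 (m + 1),
        (xco (P.freyCurve⁄Qb) (k • t) + (P.b : Qb) ^ P.p / 4) := by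
    rw [h12m, ← Finset.prod_mul_distrib]
    refine Finset.prod_congr rfl fun k hk => ?_
    rw [hx k hk, hxT₃, hcB]; ring
  obtain ⟨hK₁, hK₃⟩ := hK
  refine Fermat.Agent.S12P.AnBridge51.false_of_K P.freyCurve hΔ P.pp hpm hm t ht T₁ T₂ T₃
    (Point.some_ne_zero _) (Point.some_ne_zero _) (Point.some_ne_zero _)
    (htwo _ hn₁) (htwo _ hn₂) (htwo _ hn₃) h12 h13 h23
    (A := P.a ^ P.p) (B := P.b ^ P.p) (pow_ne_zero _ P.ha0) (pow_ne_zero _ P.hb0)
    (s := 3) (by norm_num) ?_ ?_ ?_ ?_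
  · rw [hxT₁, hxT₂, hcA]; push_cast; ring
  · rw [hxT₁, hxT₃, hcB]; push_cast; ring
  · rw [hP₁, hP₂, mul_pow, mul_pow, hK₁]; ring
  · rw [hP₃, hP₂, mul_pow, mul_pow, hK₃]; ring

end Fermat.Agent.S12P.AnBridge78
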